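import Mathlib
import Fermat.Agent.LT.H556.A0
import Fermat.Agent.LT.T1.Spec

/-!
# Row LT, tower T2, sub-leaf T2.03c.1 `LeafCount` (helper323), OFF-MAIN : THE ALGEBRA

* `conj_ray_eq323` : if `x = β z a ω₀` (`z` central) and `δ x = x ω` then
  `(β⁻¹ δ β) a = a (ω₀ ω ω₀⁻¹)`.
* `entries_of_conj323` : if `a = diag(s, 1)` is in the ray, `γ ∈ GL₂(K)` and `γ a = a ω₁` then
  `ω₁ = γ` at the finite places and, at every infinite place `w`,
  `‖(ω₁)₀₀‖ = |γ₀₀|_w`, `‖(ω₁)₁₁‖ = |γ₁₁|_w`, `s ‖(ω₁)₀₁‖ = |γ₀₁|_w`, `‖(ω₁)₁₀‖ = |γ₁₀|_w s`.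
-/

set_option autoImplicit false
set_option linter.style.haveILetI false
set_option linter.unusedSectionVars false

open IsDedekindDomain NumberField
open Fermat.Agent.LT.H556.A0 Fermat.Agent.LT

noncomputable section

namespace Fermat.Agent.LT.T2.H323

variable (K : Type) [Field K] [NumberField K]

/-- The projection of the adele ring to the completion at the infinite place `w`. -/
def pInf323 (w : InfinitePlace K) : Adl K →+* w.Completion where
  toFun x := x.1 w
  map_one' := rfl
  map_mul' _ _ := rfl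
  map_zero' := rfl
  map_add' _ _ := rfl

/-- The projection of the adele ring to the completion at the finite place `v`. -/
def pFin323 (v : HeightOneSpectrum (𝓞 K)) : Adl K →+* v.adicCompletion K where
  toFun x := x.2 v
  map_one' := rfl
  map_mul' _ _ := rfl
  map_zero' := rfl
  map_add' _ _ := rfl

theorem ratG_val323 (γ : GL (Fin 2) K) (i j : Fin 2) :
    (T1.ratG K γ).val i j = algebraMap K (Adl K) (γ.val i j) := rfl

theorem norm_inf_algebraMap323 (w : InfinitePlace K) (ξ : K) :
    ‖(algebraMap K (Adl K) ξ).1 w‖ = w ξ := by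
  change ‖((ξ : K) : w.Completion)‖ = _
  rw [InfinitePlace.Completion.norm_coe]
  rfl

theorem norm_eq_norm_extEmb323 (w : InfinitePlace K) (x : w.Completion) :
    ‖x‖ = ‖InfinitePlace.Completion.extensionEmbedding w x‖ := by
  have h := (InfinitePlace.Completion.isometry_extensionEmbedding w).norm_map_of_map_zero
    (map_zero _) x
  exact h.symm

/-- Central elements commute with everything. -/
theorem central_comm323 {z : G K} (hz : T1.IsCentral K z) (g : G K) : z * g = g * z := by
  obtain ⟨c, hc⟩ := hz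
  apply Units.ext
  rw [Units.val_mul, Units.val_mul, hc]
  ext i j
  rw [Matrix.diagonal_mul, Matrix.mul_diagonal, mul_comm]

/-- Abstract form of the reduction to the ray. -/
theorem conj_abs323 {H : Type*} [Group H] {b d z a ω₀ ω x : H} (hz : ∀ g : H, z * g = g * z)
    (hx : x = b * z * a * ω₀) (h : d * x = x * ω) :
    b⁻¹ * d * b * a = a * (ω₀ * ω * ω₀⁻¹) := by
  have hx' : x = z * (b * a * ω₀) := by
    rw [hx, ← hz b]
    simp only [mul_assoc]
  rw [hx'] at h
  have h1 : d * (z * (b * a * ω₀)) = z * (d * (b * a * ω₀)) := by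
    rw [← mul_assoc, ← hz d, mul_assoc]
  rw [h1, mul_assoc z (b * a * ω₀) ω] at h
  have h3 : d * (b * a * ω₀) = b * a * ω₀ * ω := mul_left_cancel h
  calc b⁻¹ * d * b * a = b⁻¹ * (d * (b * a * ω₀)) * ω₀⁻¹ := by group
    _ = b⁻¹ * (b * a * ω₀ * ω) * ω₀⁻¹ := by rw [h3]
    _ = a * (ω₀ * ω * ω₀⁻¹) := by group

/-- **Reduction to the ray.** -/
theorem conj_ray_eq323 {x a ω₀ z ω : G K} {β δ : GL (Fin 2) K} (hz : T1.IsCentral K z)
    (hx : x = T1.ratG K β * z * a * ω₀) (h : T1.ratG K δ * x = x * ω) :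
    T1.ratG K (β⁻¹ * δ * β) * a = a * (ω₀ * ω * ω₀⁻¹) := by
  rw [map_mul, map_mul, map_inv]
  exact conj_abs323 (central_comm323 K hz) hx h

/-- **The entries of `a⁻¹ γ a`.** -/
theorem entries_of_conj323 {a ω : G K} {s : ℝ} (hs : 0 < s) (ha : T1.IsRay K a s)
    (γ : GL (Fin 2) K) (h : T1.ratG K γ * a = a * ω) :
    (∀ (v : HeightOneSpectrum (𝓞 K)) (i j : Fin 2),
        (ω.val i j).2 v = algebraMap K (v.adicCompletion K) (γ.val i j)) ∧
    ∀ w : InfinitePlace K,
      ‖(ω.val 0 0).1 w‖ = w (γ.val 0 0) ∧ ‖(ω.val 1 1).1 w‖ = w (γ.val 1 1) ∧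
      s * ‖(ω.val 0 1).1 w‖ = w (γ.val 0 1) ∧ ‖(ω.val 1 0).1 w‖ = w (γ.val 1 0) * s := by
  have hM : (T1.ratG K γ).val * a.val = a.val * ω.val := by
    rw [← Units.val_mul, ← Units.val_mul, h]
  have e : ∀ i j : Fin 2,
      (T1.ratG K γ).val i 0 * a.val 0 j + (T1.ratG K γ).val i 1 * a.val 1 j
        = a.val i 0 * ω.val 0 j + a.val i 1 * ω.val 1 j := by
    intro i j
    have := congrFun (congrFun hM i) j
    simpa [Matrix.mul_apply, Fin.sum_univ_two] using this
  constructor
  · intro v i j
    have hA : a.val.map (pFin323 K v) = 1 := ha.1 v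
    have hmap := congrArg (fun M : Matrix (Fin 2) (Fin 2) (Adl K) => M.map (pFin323 K v)) hM
    simp only [Matrix.map_mul] at hmap
    rw [hA, mul_one, one_mul] at hmap
    have := congrFun (congrFun hmap i) j
    exact this.symm
  · intro w
    have hw : ∀ k l : Fin 2, InfinitePlace.Completion.extensionEmbedding w ((a.val k l).1 w)
        = (!![(s : ℂ), 0; 0, 1] : Matrix (Fin 2) (Fin 2) ℂ) k l :=
      fun k l => congrFun (congrFun (ha.2 w) k) l
    have hinj := (InfinitePlace.Completion.extensionEmbedding w).injective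
    have h01 : (a.val 0 1).1 w = 0 := by
      apply hinj
      rw [hw 0 1, map_zero]
      rfl
    have h10 : (a.val 1 0).1 w = 0 := by
      apply hinj
      rw [hw 1 0, map_zero]
      rfl
    have h11 : (a.val 1 1).1 w = 1 := by
      apply hinj
      rw [hw 1 1, map_one]
      rfl
    have h00 : ‖(a.val 0 0).1 w‖ = s := by
      rw [norm_eq_norm_extEmb323, hw 0 0]
      change ‖(s : ℂ)‖ = s
      rw [Complex.norm_real, Real.norm_eq_abs, abs_of_pos hs]
    have ew : ∀ i j : Fin 2,
        (algebraMap K (Adl K) (γ.val i 0)).1 w * (a.val 0 j).1 w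
          + (algebraMap K (Adl K) (γ.val i 1)).1 w * (a.val 1 j).1 w
        = (a.val i 0).1 w * (ω.val 0 j).1 w + (a.val i 1).1 w * (ω.val 1 j).1 w := by
      intro i j
      have e1 := congrArg (pInf323 K w) (e i j)
      simp only [map_add, map_mul] at e1
      exact e1
    have e00 := ew 0 0
    have e01 := ew 0 1
    have e10 := ew 1 0
    have e11 := ew 1 1
    rw [h10, h01, mul_zero, add_zero, zero_mul, add_zero] at e00
    rw [h01, h11, mul_zero, zero_add, mul_one, zero_mul, add_zero] at e01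
    rw [h10, h11, mul_zero, add_zero, zero_mul, zero_add, one_mul] at e10
    rw [h01, h11, mul_zero, zero_add, mul_one, h10, zero_mul, zero_add, one_mul] at e11
    refine ⟨?_, ?_, ?_, ?_⟩
    · have := congrArg norm e00
      rw [norm_mul, norm_mul, h00, norm_inf_algebraMap323] at this
      have hs' : s ≠ 0 := hs.ne'
      have h2 : s * ‖(ω.val 0 0).1 w‖ = s * w (γ.val 0 0) := by
        rw [← this, mul_comm]
      exact mul_left_cancel₀ hs' h2
    · have := congrArg norm e11
      rw [norm_inf_algebraMap323] at this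
      exact this.symm
    · have := congrArg norm e01
      rw [norm_mul, h00, norm_inf_algebraMap323] at this
      exact this.symm
    · have := congrArg norm e10
      rw [norm_mul, h00, norm_inf_algebraMap323] at this
      exact this.symm

end Fermat.Agent.LT.T2.H323

end
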