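import Mathlib
import Fermat.Agent.LT.H556.A0

/-!
# Row LT, tower T2, sub-leaf T2.03c.1 `LeafCount` (helper323), OFF-MAIN : COMPACT SETS OF ADELES

`exists_bound_of_isCompact323` : a compact set `E` of adeles has a common denominator `d ∈ 𝓞 K`,
`d ≠ 0` (`d y_v ∈ 𝒪_v` for all `y ∈ E` and all finite places `v`) and a common bound `S` at the
infinite places.

Proof: the sets `denomSet323 d` of the adeles with denominator `d` are open and cover (every finite
adele has a denominator: the argument of helper767, `LT/H767/StrongApprox.lean`, repeated here so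
that the file depends on Mathlib and `A0` only), a finite subcover has the product as a common
denominator.  At the infinite places: a continuous function is bounded on a compact set.
-/

set_option autoImplicit false
set_option linter.style.haveILetI false
set_option linter.unusedSectionVars false

open IsDedekindDomain NumberField IsDedekindDomain.HeightOneSpectrum
open Fermat.Agent.LT.H556.A0

noncomputable section

namespace Fermat.Agent.LT.T2.H323

variable (K : Type) [Field K] [NumberField K]

/-- The valuation of the image of `k : K` in `K_v`. -/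
theorem valued_algebraMap323 (v : HeightOneSpectrum (𝓞 K)) (k : K) :
    Valued.v (algebraMap K (v.adicCompletion K) k) = v.valuation K k :=
  valuedAdicCompletion_eq_valuation' v k

/-- The valuation of the image of `a : 𝓞 K` in `K_v` is at most one. -/
theorem valued_int_le_one323 (v : HeightOneSpectrum (𝓞 K)) (a : 𝓞 K) :
    Valued.v (algebraMap K (v.adicCompletion K) (algebraMap (𝓞 K) K a)) ≤ 1 := by
  rw [valued_algebraMap323]
  exact valuation_le_one v a

/-- Local denominators: every element of `K_v` becomes integral after multiplication by a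
non-zero element of `𝓞 K`. -/
theorem exists_int_mul_le_one323 (v : HeightOneSpectrum (𝓞 K)) (x : v.adicCompletion K) :
    ∃ d : 𝓞 K, d ≠ 0 ∧
      Valued.v (algebraMap K (v.adicCompletion K) (algebraMap (𝓞 K) K d) * x) ≤ 1 := by
  obtain ⟨π, hπ, hπ0⟩ := Submodule.exists_mem_ne_zero_of_ne_bot v.ne_bot
  set P0 : v.adicCompletion K := algebraMap K (v.adicCompletion K) (algebraMap (𝓞 K) K π) with hP0
  have hP1 : ‖P0‖ < 1 := by
    rw [Valued.toNormedField.norm_lt_one_iff, hP0, valued_algebraMap323]
    exact (valuation_lt_one_iff_mem v π).mpr hπ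
  obtain ⟨n, hn⟩ := exists_pow_lt_of_lt_one (show (0 : ℝ) < 1 / (‖x‖ + 1) by positivity) hP1
  refine ⟨π ^ n, pow_ne_zero _ hπ0, ?_⟩
  rw [← Valued.toNormedField.norm_le_one_iff, map_pow, map_pow, norm_mul, norm_pow]
  have h1 : ‖P0‖ ^ n * ‖x‖ ≤ 1 / (‖x‖ + 1) * (‖x‖ + 1) := by
    apply mul_le_mul hn.le (by linarith) (norm_nonneg _) (by positivity)
  have h2 : 1 / (‖x‖ + 1) * (‖x‖ + 1) = 1 := by
    field_simp
  linarith

/-- Global denominators: every finite adele becomes integral after multiplication by a non-zero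
element of `𝓞 K`. -/
theorem exists_denominator323 (a : FiniteAdeleRing (𝓞 K) K) :
    ∃ d : 𝓞 K, d ≠ 0 ∧ ∀ v : HeightOneSpectrum (𝓞 K),
      Valued.v (algebraMap K (v.adicCompletion K) (algebraMap (𝓞 K) K d) * a v) ≤ 1 := by
  classical
  have hfin : {v : HeightOneSpectrum (𝓞 K) | ¬ a v ∈ v.adicCompletionIntegers K}.Finite :=
    Filter.eventually_cofinite.mp a.2
  choose δ hδ0 hδ using fun v : HeightOneSpectrum (𝓞 K) => exists_int_mul_le_one323 K v (a v)
  refine ⟨∏ v ∈ hfin.toFinset, δ v, Finset.prod_ne_zero_iff.mpr fun v _ => hδ0 v, fun v => ?_⟩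
  by_cases hv : v ∈ hfin.toFinset
  · rw [← Finset.mul_prod_erase _ _ hv]
    have key : algebraMap K (v.adicCompletion K)
          (algebraMap (𝓞 K) K (δ v * ∏ x ∈ hfin.toFinset.erase v, δ x)) * a v
        = (algebraMap K (v.adicCompletion K) (algebraMap (𝓞 K) K (δ v)) * a v) *
          algebraMap K (v.adicCompletion K)
            (algebraMap (𝓞 K) K (∏ x ∈ hfin.toFinset.erase v, δ x)) := by
      rw [map_mul, map_mul]; ring
    rw [key, map_mul]
    calc _ ≤ 1 * 1 := mul_le_mul' (hδ v) (valued_int_le_one323 K v _)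
      _ = 1 := one_mul 1
  · have hav : Valued.v (a v) ≤ 1 := by
      by_contra h
      exact hv (hfin.mem_toFinset.mpr h)
    rw [map_mul]
    calc _ ≤ 1 * 1 := mul_le_mul' (valued_int_le_one323 K v _) hav
      _ = 1 := one_mul 1

/-- The adeles with denominator `d`. -/
def denomSet323 (d : 𝓞 K) : Set (Adl K) :=
  {y | ∀ v : HeightOneSpectrum (𝓞 K),
    Valued.v (algebraMap K (v.adicCompletion K) (algebraMap (𝓞 K) K d) * y.2 v) ≤ 1}

theorem isOpen_denomSet323 (d : 𝓞 K) : IsOpen (denomSet323 K d) := by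
  have h2 : IsOpen {f : FiniteAdeleRing (𝓞 K) K |
      ∀ v : HeightOneSpectrum (𝓞 K), f v ∈ v.adicCompletionIntegers K} :=
    RestrictedProduct.isOpen_forall_mem (fun v => Valued.isOpen_valuationSubring _)
  have h3 : Continuous fun y : Adl K =>
      (algebraMap K (Adl K) (algebraMap (𝓞 K) K d) * y).2 :=
    continuous_snd.comp (continuous_const.mul continuous_id)
  have : denomSet323 K d
      = (fun y : Adl K => (algebraMap K (Adl K) (algebraMap (𝓞 K) K d) * y).2) ⁻¹'
        {f | ∀ v : HeightOneSpectrum (𝓞 K), f v ∈ v.adicCompletionIntegers K} := by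
    ext y
    simp only [denomSet323, Set.mem_ofPred_eq, Set.mem_preimage]
    refine forall_congr' fun v => ?_
    rw [mem_adicCompletionIntegers]
    rfl
  rw [this]
  exact h2.preimage h3

/-- **A compact set of adeles is bounded**: common denominator at the finite places, common bound
at the infinite places. -/
theorem exists_bound_of_isCompact323 (E : Set (Adl K)) (hE : IsCompact E) :
    ∃ (d : 𝓞 K) (S : ℝ), d ≠ 0 ∧ 0 ≤ S ∧ ∀ y ∈ E,
      (∀ w : InfinitePlace K, ‖y.1 w‖ ≤ S) ∧ y ∈ denomSet323 K d := by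
  classical
  have hinf : ∀ w : InfinitePlace K, ∃ C : ℝ, ∀ y ∈ E, ‖y.1 w‖ ≤ C := fun w =>
    hE.exists_bound_of_continuousOn (f := fun y : Adl K => y.1 w)
      ((continuous_apply w).comp continuous_fst).continuousOn
  choose Cw hCw using hinf
  have hcov : E ⊆ ⋃ d : {d : 𝓞 K // d ≠ 0}, denomSet323 K d.1 := by
    intro y _
    obtain ⟨d, hd0, hd⟩ := exists_denominator323 K y.2
    exact Set.mem_iUnion.mpr ⟨⟨d, hd0⟩, hd⟩
  obtain ⟨t, ht⟩ := hE.elim_finite_subcover (fun d : {d : 𝓞 K // d ≠ 0} => denomSet323 K d.1)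
    (fun d => isOpen_denomSet323 K d.1) hcov
  refine ⟨∏ d ∈ t, d.1, ∑ w, |Cw w|, Finset.prod_ne_zero_iff.mpr fun d _ => d.2,
    Finset.sum_nonneg fun w _ => abs_nonneg _, fun y hy => ⟨fun w => ?_, fun v => ?_⟩⟩
  · calc ‖y.1 w‖ ≤ Cw w := hCw w y hy
      _ ≤ |Cw w| := le_abs_self _
      _ ≤ ∑ w, |Cw w| :=
        Finset.single_le_sum (f := fun w => |Cw w|) (fun w _ => abs_nonneg _) (Finset.mem_univ w)
  · obtain ⟨d, hdt, hd⟩ : ∃ d ∈ t, y ∈ denomSet323 K d.1 := by
      have := ht hy
      simpa [Set.mem_iUnion] using this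
    rw [← Finset.mul_prod_erase _ _ hdt]
    have key : algebraMap K (v.adicCompletion K)
          (algebraMap (𝓞 K) K (d.1 * ∏ x ∈ t.erase d, x.1)) * y.2 v
        = (algebraMap K (v.adicCompletion K) (algebraMap (𝓞 K) K d.1) * y.2 v) *
          algebraMap K (v.adicCompletion K)
            (algebraMap (𝓞 K) K (∏ x ∈ t.erase d, x.1)) := by
      rw [map_mul, map_mul]; ring
    rw [key, map_mul]
    calc _ ≤ 1 * 1 := mul_le_mul' (hd v) (valued_int_le_one323 K v _)
      _ = 1 := one_mul 1

end Fermat.Agent.LT.T2.H323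

end
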