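import Mathlib

/-!
# Row LT, tower T2, sub-leaf T2.03c.1 `LeafCount` (helper323), OFF-MAIN : LATTICE POINTS

`exists_card_box_le323` : there is `C ≥ 0` such that for every `ρ ≥ 0` the number of algebraic
integers `x ∈ 𝓞 K` with `|x|_w ≤ ρ` at every infinite place `w` is at most
`(2 C ρ + 1) ^ [K : ℚ]`.

Proof: coordinates in the integral basis.  `x = ∑ aᵢ bᵢ`, `aᵢ ∈ ℤ`, and
`a = L (mixedEmbedding x)` for the `ℝ`-linear isomorphism `L` of the mixed space with `ℝ^n` given
by the lattice basis; `L` is bounded (finite dimension), `‖mixedEmbedding x‖ = max_w |x|_w`.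
Mathlib only.
-/

set_option autoImplicit false
set_option linter.style.haveILetI false

open NumberField Module
open NumberField.mixedEmbedding (mixedSpace)

noncomputable section

namespace Fermat.Agent.LT.T2.H323

variable (K : Type) [Field K] [NumberField K]

set_option backward.isDefEq.respectTransparency false in
open scoped Classical in
/-- `‖mixedEmbedding x‖ ≤ ρ` if `|x|_w ≤ ρ` at every infinite place. -/
theorem norm_mixedEmbedding_le323 (x : K) (ρ : ℝ)
    (h : ∀ w : InfinitePlace K, w x ≤ ρ) : ‖mixedEmbedding K x‖ ≤ ρ := by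
  rw [mixedEmbedding.norm_eq_sup'_normAtPlace]
  refine Finset.sup'_le _ _ fun w _ => ?_
  rw [mixedEmbedding.normAtPlace_apply]
  exact h w

set_option backward.isDefEq.respectTransparency false in
open scoped Classical in
/-- The coordinates of an algebraic integer in the integral basis are bounded by the norm of its
mixed embedding. -/
theorem exists_coord_bound323 :
    ∃ C : ℝ, 0 ≤ C ∧ ∀ (x : 𝓞 K) (i : Free.ChooseBasisIndex ℤ (𝓞 K)),
      |(((RingOfIntegers.basis K).repr x i : ℤ) : ℝ)| ≤ C * ‖mixedEmbedding K (x : K)‖ := by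
  classical
  set L : mixedSpace K →L[ℝ] (Free.ChooseBasisIndex ℤ (𝓞 K) → ℝ) :=
    LinearMap.toContinuousLinearMap
      ((mixedEmbedding.latticeBasis K).equivFun : mixedSpace K →ₗ[ℝ] _) with hL
  refine ⟨‖L‖, norm_nonneg _, fun x i => ?_⟩
  have h1 : L (mixedEmbedding K (x : K)) i = (((RingOfIntegers.basis K).repr x i : ℤ) : ℝ) := by
    show (mixedEmbedding.latticeBasis K).equivFun (mixedEmbedding K (x : K)) i = _
    rw [Basis.equivFun_apply, mixedEmbedding.latticeBasis_repr_apply]
    have h2 := integralBasis_repr_apply K x i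
    rw [h2]
    simp
  rw [← h1]
  calc |L (mixedEmbedding K (x : K)) i| = ‖L (mixedEmbedding K (x : K)) i‖ := (Real.norm_eq_abs _).symm
    _ ≤ ‖L (mixedEmbedding K (x : K))‖ := norm_le_pi_norm _ i
    _ ≤ ‖L‖ * ‖mixedEmbedding K (x : K)‖ := L.le_opNorm _

set_option backward.isDefEq.respectTransparency false in
open scoped Classical in
/-- **The count of lattice points in a box.** -/
theorem exists_card_box_le323 :
    ∃ C : ℝ, 0 ≤ C ∧ ∀ ρ : ℝ, 0 ≤ ρ → ∀ T : Finset (𝓞 K),
      (∀ x ∈ T, ∀ w : InfinitePlace K, w (x : K) ≤ ρ) →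
        (T.card : ℝ) ≤ (2 * C * ρ + 1) ^ Module.finrank ℚ K := by
  classical
  obtain ⟨C, hC0, hC⟩ := exists_coord_bound323 K
  refine ⟨C, hC0, fun ρ hρ T hT => ?_⟩
  set N : ℕ := ⌊C * ρ⌋₊ with hN
  have hCρ : 0 ≤ C * ρ := mul_nonneg hC0 hρ
  -- the coordinate map
  set Φ : 𝓞 K → (Free.ChooseBasisIndex ℤ (𝓞 K) → ℤ) :=
    fun x i => (RingOfIntegers.basis K).repr x i with hΦ
  have hinj : Function.Injective Φ := by
    intro x y hxy
    apply (RingOfIntegers.basis K).repr.injective
    ext i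
    exact congrFun hxy i
  have himg : T.image Φ ⊆ Fintype.piFinset fun _ => Finset.Icc (-(N : ℤ)) (N : ℤ) := by
    intro a ha
    obtain ⟨x, hx, rfl⟩ := Finset.mem_image.mp ha
    rw [Fintype.mem_piFinset]
    intro i
    have h1 := hC x i
    have h2 : ‖mixedEmbedding K (x : K)‖ ≤ ρ := norm_mixedEmbedding_le323 K _ ρ (hT x hx)
    have h3 : |(((RingOfIntegers.basis K).repr x i : ℤ) : ℝ)| ≤ C * ρ :=
      h1.trans (mul_le_mul_of_nonneg_left h2 hC0)
    have h4 : |(RingOfIntegers.basis K).repr x i| ≤ (N : ℤ) := by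
      have h5 : ((|(RingOfIntegers.basis K).repr x i| : ℤ) : ℝ) ≤ C * ρ := by
        rw [Int.cast_abs]
        exact h3
      have h6 : ((|(RingOfIntegers.basis K).repr x i|).toNat : ℝ) ≤ C * ρ := by
        have h7 : (((|(RingOfIntegers.basis K).repr x i|).toNat : ℤ) : ℝ)
            = ((|(RingOfIntegers.basis K).repr x i| : ℤ) : ℝ) := by
          rw [Int.toNat_of_nonneg (abs_nonneg _)]
        have h8 : (((|(RingOfIntegers.basis K).repr x i|).toNat : ℤ) : ℝ)
            = ((|(RingOfIntegers.basis K).repr x i|).toNat : ℝ) := by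
          push_cast
          rfl
        rw [← h8, h7]
        exact h5
      have h9 : (|(RingOfIntegers.basis K).repr x i|).toNat ≤ N := Nat.le_floor h6
      calc |(RingOfIntegers.basis K).repr x i|
          = ((|(RingOfIntegers.basis K).repr x i|).toNat : ℤ) :=
            (Int.toNat_of_nonneg (abs_nonneg _)).symm
        _ ≤ (N : ℤ) := by exact_mod_cast h9
    rw [Finset.mem_Icc]
    exact abs_le.mp h4
  have hcard : T.card ≤ (2 * N + 1) ^ Module.finrank ℚ K := by
    calc T.card = (T.image Φ).card := (Finset.card_image_of_injective T hinj).symm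
      _ ≤ (Fintype.piFinset fun _ : Free.ChooseBasisIndex ℤ (𝓞 K) =>
            Finset.Icc (-(N : ℤ)) (N : ℤ)).card := Finset.card_le_card himg
      _ = (2 * N + 1) ^ Module.finrank ℚ K := by
          rw [Fintype.card_piFinset, Finset.prod_const, Finset.card_univ, Int.card_Icc,
            ← Module.finrank_eq_card_chooseBasisIndex, RingOfIntegers.rank]
          congr 1
          omega
  have hN' : (N : ℝ) ≤ C * ρ := Nat.floor_le hCρ
  calc (T.card : ℝ) ≤ (((2 * N + 1) ^ Module.finrank ℚ K : ℕ) : ℝ) := by exact_mod_cast hcard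
    _ = (2 * (N : ℝ) + 1) ^ Module.finrank ℚ K := by push_cast; rfl
    _ ≤ (2 * C * ρ + 1) ^ Module.finrank ℚ K := by
        apply pow_le_pow_left₀ (by positivity)
        nlinarith

/-- The valuation of the image of `k : K` in `K_v` (Mathlib `valuedAdicCompletion_eq_valuation'`).
-/
theorem valued_algebraMapL323 (v : IsDedekindDomain.HeightOneSpectrum (𝓞 K)) (k : K) :
    Valued.v (algebraMap K (v.adicCompletion K) k) = v.valuation K k :=
  IsDedekindDomain.HeightOneSpectrum.valuedAdicCompletion_eq_valuation' v k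

/-- **Lattice points with a denominator.**  For `d ∈ 𝓞 K`, `d ≠ 0`, the number of `ξ ∈ K` with
`d ξ` integral at every finite place and `|ξ|_w ≤ ρ` at every infinite place is at most
`(A ρ + 1) ^ [K : ℚ]`, `A` depending on `d` only. -/
theorem exists_card_le_of_denom323 (d : 𝓞 K) (hd : d ≠ 0) :
    ∃ A : ℝ, 0 ≤ A ∧ ∀ ρ : ℝ, 0 ≤ ρ → ∀ T : Finset K,
      (∀ ξ ∈ T, (∀ v : IsDedekindDomain.HeightOneSpectrum (𝓞 K),
          Valued.v (algebraMap K (v.adicCompletion K) (algebraMap (𝓞 K) K d) *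
            algebraMap K (v.adicCompletion K) ξ) ≤ 1) ∧
        ∀ w : InfinitePlace K, w ξ ≤ ρ) →
      (T.card : ℝ) ≤ (A * ρ + 1) ^ Module.finrank ℚ K := by
  classical
  obtain ⟨C, hC0, hC⟩ := exists_card_box_le323 K
  set W : ℝ := ∑ w : InfinitePlace K, w (algebraMap (𝓞 K) K d) with hW
  have hW0 : 0 ≤ W := Finset.sum_nonneg fun w _ => apply_nonneg _ _
  refine ⟨2 * C * W, by positivity, fun ρ hρ T hT => ?_⟩
  have hint : ∀ ξ ∈ T, ∃ x : 𝓞 K, algebraMap (𝓞 K) K x = algebraMap (𝓞 K) K d * ξ := by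
    intro ξ hξ
    have h := IsDedekindDomain.HeightOneSpectrum.mem_integers_of_valuation_le_one K
      (algebraMap (𝓞 K) K d * ξ) fun v => by
        have := (hT ξ hξ).1 v
        rw [← map_mul, valued_algebraMapL323] at this
        exact this
    obtain ⟨x, hx⟩ := h
    exact ⟨x, hx⟩
  set f : K → 𝓞 K := fun ξ =>
    if h : ∃ x : 𝓞 K, algebraMap (𝓞 K) K x = algebraMap (𝓞 K) K d * ξ then h.choose else 0
    with hf
  have hfv : ∀ ξ ∈ T, algebraMap (𝓞 K) K (f ξ) = algebraMap (𝓞 K) K d * ξ := by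
    intro ξ hξ
    have h := hint ξ hξ
    simp only [hf, dif_pos h]
    exact h.choose_spec
  have hdK : algebraMap (𝓞 K) K d ≠ 0 := by simpa using hd
  have hinj : Set.InjOn f T := by
    intro ξ hξ η hη h
    have := congrArg (fun x : 𝓞 K => algebraMap (𝓞 K) K x) h
    simp only [hfv ξ hξ, hfv η hη] at this
    exact mul_left_cancel₀ hdK this
  have hcard : (T.image f).card = T.card := Finset.card_image_of_injOn hinj
  have hb : ∀ x ∈ T.image f, ∀ w : InfinitePlace K, w (x : K) ≤ W * ρ := by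
    intro x hx w
    obtain ⟨ξ, hξ, rfl⟩ := Finset.mem_image.mp hx
    have e : ((f ξ : 𝓞 K) : K) = algebraMap (𝓞 K) K d * ξ := hfv ξ hξ
    rw [e, map_mul]
    have h1 : w (algebraMap (𝓞 K) K d) ≤ W :=
      Finset.single_le_sum (f := fun w : InfinitePlace K => w (algebraMap (𝓞 K) K d))
        (fun w _ => apply_nonneg _ _) (Finset.mem_univ w)
    exact mul_le_mul h1 ((hT ξ hξ).2 w) (apply_nonneg _ _) hW0
  have := hC (W * ρ) (mul_nonneg hW0 hρ) (T.image f) hb
  rw [hcard] at this
  calc (T.card : ℝ) ≤ (2 * C * (W * ρ) + 1) ^ Module.finrank ℚ K := this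
    _ = (2 * C * W * ρ + 1) ^ Module.finrank ℚ K := by ring_nf

end Fermat.Agent.LT.T2.H323

end
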