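import Mathlib
import Fermat.Agent.LT.H556.A0
import Fermat.Agent.LT.T1.Spec
import Fermat.Agent.LT.T2.H767.LocalL2Spec
import Fermat.Agent.LT.T2.H323.Count.Lattice
import Fermat.Agent.LT.T2.H323.Count.Compact
import Fermat.Agent.LT.T2.H323.Count.Alg

/-!
# Row LT, tower T2, sub-leaf T2.03c.1 `LeafCount` (helper323), OFF-MAIN : THE COUNT

`leafCount323 K : Fermat.Agent.LT.T2.H767.LeafCount K`, VERBATIM against
`LT/T2/H767/LocalL2Spec.lean` (helper767, sha 50e6aa79), for every number field `K`: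
for a compact `C ⊆ GL₂(𝔸_K)` the number of `δ ∈ GL₂(K)` with `δ x ∈ x C` is `≤ B · H(x)` on
`{H ≥ 1}`.

Only `T1Out.siegelCompact` (with `c = 1`) is used.  `x = β z a ω₀`; `γ = β⁻¹ δ β` satisfies
`γ a = a ω₁`, `ω₁ = ω₀ ω ω₀⁻¹ ∈ C₁ = Ω C Ω⁻¹` (compact); the entries of the elements of `C₁` lie
in a compact set `E` of adeles, which has a common denominator `d` and a common bound `S` at the
infinite places (`Compact.lean`); so `d γ_ij ∈ 𝓞 K`, `|γ₀₀|_w, |γ₁₁|_w ≤ S`, `|γ₁₀|_w ≤ S / s`,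
`|γ₀₁|_w ≤ s S` (`Alg.lean`), and the number of such entries is bounded by the count of lattice
points in the integral basis (`Lattice.lean`): `(A S + 1)^n` twice, `(A S / s + 1)^n ≤
(A S / s₀ + 1)^n` and `(A s S + 1)^n = s^n (A S + 1/s)^n ≤ M t (A S + 1/s₀)^n`, `s₀ = min(1, m)`.
-/

set_option autoImplicit false
set_option linter.style.haveILetI false
set_option linter.unusedSectionVars false

open IsDedekindDomain NumberField
open Fermat.Agent.LT.H556.A0 Fermat.Agent.LT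

noncomputable section

namespace Fermat.Agent.LT.T2.H323

variable (K : Type) [Field K] [NumberField K]

open scoped Classical in
/-- A finite set of matrices has at most as many elements as the product of the numbers of its
entries. -/
theorem card_le_prod_entries323 (T : Finset (GL (Fin 2) K)) :
    T.card ≤ (T.image fun γ => γ.val 0 0).card * ((T.image fun γ => γ.val 0 1).card *
      ((T.image fun γ => γ.val 1 0).card * (T.image fun γ => γ.val 1 1).card)) := by
  classical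
  have h : T.card ≤ ((T.image fun γ => γ.val 0 0) ×ˢ (T.image fun γ => γ.val 0 1) ×ˢ
      (T.image fun γ => γ.val 1 0) ×ˢ (T.image fun γ => γ.val 1 1)).card := by
    refine Finset.card_le_card_of_injOn
      (fun γ => (γ.val 0 0, γ.val 0 1, γ.val 1 0, γ.val 1 1)) ?_ ?_
    · intro γ hγ
      have hγ' : γ ∈ T := hγ
      simp only [Finset.coe_product, Set.mem_prod, Finset.mem_coe]
      exact ⟨Finset.mem_image_of_mem _ hγ', Finset.mem_image_of_mem _ hγ',
        Finset.mem_image_of_mem _ hγ', Finset.mem_image_of_mem _ hγ'⟩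
    · intro γ _ γ' _ h
      simp only [Prod.mk.injEq] at h
      apply Units.ext
      ext i j
      fin_cases i <;> fin_cases j
      exacts [h.1, h.2.1, h.2.2.1, h.2.2.2]
  rw [Finset.card_product, Finset.card_product, Finset.card_product] at h
  exact h

/-- **T2.03c.1 THE COUNT.** -/
theorem leafCount323 : H767.LeafCount K := by
  intro hT C hC
  classical
  obtain ⟨Ω, m, M, hΩ, hm, hmM, hS⟩ := hT.siegelCompact 1 one_pos
  have hM : 0 < M := lt_of_lt_of_le hm hmM
  -- the compact set `C₁ = Ω C Ω⁻¹`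
  set C₁ : Set (G K) :=
    (fun p : G K × G K × G K => p.1 * p.2.1 * p.2.2⁻¹) '' (Ω ×ˢ C ×ˢ Ω) with hC₁
  have hC₁c : IsCompact C₁ := (hΩ.prod (hC.prod hΩ)).image (by fun_prop)
  -- the compact set of the entries
  set E : Set (Adl K) := ⋃ i : Fin 2, ⋃ j : Fin 2, (fun g : G K => g.val i j) '' C₁ with hE
  have hEc : IsCompact E := isCompact_iUnion fun i => isCompact_iUnion fun j =>
    hC₁c.image (Units.continuous_val.matrix_elem i j)
  obtain ⟨d, S, hd0, hS0, hb⟩ := exists_bound_of_isCompact323 K E hEc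
  obtain ⟨A, hA0, hcount⟩ := exists_card_le_of_denom323 K d hd0
  have hn1 : 1 ≤ Module.finrank ℚ K := Module.finrank_pos
  set n : ℕ := Module.finrank ℚ K with hn
  set s₀ : ℝ := min 1 m with hs₀
  have hs₀pos : 0 < s₀ := lt_min one_pos hm
  refine ⟨(A * S + 1) ^ n * ((A * S + 1 / s₀) ^ n * M) * (A * (S / s₀) + 1) ^ n *
    (A * S + 1) ^ n, 1, one_pos, fun x t hx ht T hTC => ?_⟩
  have ht0 : 0 < t := lt_of_lt_of_le one_pos ht
  obtain ⟨β, z, a, ω₀, s, hβ, hz, hs, ha, hω₀, hxeq, hms, hsM⟩ := hS x t hx ht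
  -- `s ≥ s₀`
  have hss₀ : s₀ ≤ s := by
    by_cases h1 : 1 ≤ s
    · exact (min_le_left _ _).trans h1
    · rw [not_le] at h1
      have h2 : s ^ n ≤ s := by
        calc s ^ n ≤ s ^ 1 := pow_le_pow_of_le_one hs.le h1.le hn1
          _ = s := pow_one s
      have h3 : m ≤ m * t := by nlinarith
      exact (min_le_right _ _).trans (h3.trans (hms.trans h2))
  -- the conjugated set
  set T' : Finset (GL (Fin 2) K) := T.image (fun δ => β⁻¹ * δ * β) with hT'
  have hcardT : T'.card = T.card := Finset.card_image_of_injective _ (by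
    intro δ δ' h
    exact mul_left_cancel (mul_right_cancel h))
  have hent : ∀ γ ∈ T', ∃ ω₁ ∈ C₁, T1.ratG K γ * a = a * ω₁ := by
    intro γ hγ
    obtain ⟨δ, hδ, rfl⟩ := Finset.mem_image.mp hγ
    obtain ⟨ω, hω, h⟩ := hTC δ hδ
    exact ⟨ω₀ * ω * ω₀⁻¹, ⟨(ω₀, ω, ω₀), ⟨hω₀, hω, hω₀⟩, rfl⟩, conj_ray_eq323 K hz hxeq h⟩
  have hfacts : ∀ γ ∈ T',
      (∀ (i j : Fin 2) (v : HeightOneSpectrum (𝓞 K)),
        Valued.v (algebraMap K (v.adicCompletion K) (algebraMap (𝓞 K) K d) *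
          algebraMap K (v.adicCompletion K) (γ.val i j)) ≤ 1) ∧
      ∀ w : InfinitePlace K, w (γ.val 0 0) ≤ S ∧ w (γ.val 1 1) ≤ S ∧
        w (γ.val 0 1) ≤ s * S ∧ w (γ.val 1 0) ≤ S / s := by
    intro γ hγ
    obtain ⟨ω₁, hω₁, h⟩ := hent γ hγ
    obtain ⟨hfin, hinf⟩ := entries_of_conj323 K hs ha γ h
    have hE' : ∀ i j : Fin 2, ω₁.val i j ∈ E := fun i j =>
      Set.mem_iUnion.mpr ⟨i, Set.mem_iUnion.mpr ⟨j, ⟨ω₁, hω₁, rfl⟩⟩⟩
    refine ⟨fun i j v => ?_, fun w => ?_⟩
    · have := (hb _ (hE' i j)).2 v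
      rw [hfin v i j] at this
      exact this
    · obtain ⟨h00, h11, h01, h10⟩ := hinf w
      refine ⟨?_, ?_, ?_, ?_⟩
      · rw [← h00]; exact (hb _ (hE' 0 0)).1 w
      · rw [← h11]; exact (hb _ (hE' 1 1)).1 w
      · rw [← h01]; exact mul_le_mul_of_nonneg_left ((hb _ (hE' 0 1)).1 w) hs.le
      · rw [le_div_iff₀ hs, ← h10]; exact (hb _ (hE' 1 0)).1 w
  -- the four counts
  have c00 : ((T'.image fun γ => γ.val 0 0).card : ℝ) ≤ (A * S + 1) ^ n := by
    apply hcount S hS0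
    intro ξ hξ
    obtain ⟨γ, hγ, rfl⟩ := Finset.mem_image.mp hξ
    exact ⟨(hfacts γ hγ).1 0 0, fun w => ((hfacts γ hγ).2 w).1⟩
  have c11 : ((T'.image fun γ => γ.val 1 1).card : ℝ) ≤ (A * S + 1) ^ n := by
    apply hcount S hS0
    intro ξ hξ
    obtain ⟨γ, hγ, rfl⟩ := Finset.mem_image.mp hξ
    exact ⟨(hfacts γ hγ).1 1 1, fun w => ((hfacts γ hγ).2 w).2.1⟩
  have c01 : ((T'.image fun γ => γ.val 0 1).card : ℝ) ≤ (A * (s * S) + 1) ^ n := by
    apply hcount (s * S) (mul_nonneg hs.le hS0)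
    intro ξ hξ
    obtain ⟨γ, hγ, rfl⟩ := Finset.mem_image.mp hξ
    exact ⟨(hfacts γ hγ).1 0 1, fun w => ((hfacts γ hγ).2 w).2.2.1⟩
  have c10 : ((T'.image fun γ => γ.val 1 0).card : ℝ) ≤ (A * (S / s) + 1) ^ n := by
    apply hcount (S / s) (div_nonneg hS0 hs.le)
    intro ξ hξ
    obtain ⟨γ, hγ, rfl⟩ := Finset.mem_image.mp hξ
    exact ⟨(hfacts γ hγ).1 1 0, fun w => ((hfacts γ hγ).2 w).2.2.2⟩
  -- the estimates in `s`
  have c01' : (A * (s * S) + 1) ^ n ≤ (A * S + 1 / s₀) ^ n * M * t := by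
    have e : A * (s * S) + 1 = s * (A * S + 1 / s) := by
      field_simp
    rw [e, mul_pow]
    have h0 : 0 ≤ A * S := mul_nonneg hA0 hS0
    have h1 : (A * S + 1 / s) ^ n ≤ (A * S + 1 / s₀) ^ n := by
      apply pow_le_pow_left₀ (by positivity)
      have : 1 / s ≤ 1 / s₀ := one_div_le_one_div_of_le hs₀pos hss₀
      linarith
    calc s ^ n * (A * S + 1 / s) ^ n ≤ (M * t) * (A * S + 1 / s₀) ^ n :=
          mul_le_mul hsM h1 (by positivity) (by positivity)
      _ = (A * S + 1 / s₀) ^ n * M * t := by ring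
  have c10' : (A * (S / s) + 1) ^ n ≤ (A * (S / s₀) + 1) ^ n := by
    have h0 : 0 ≤ A * (S / s) := mul_nonneg hA0 (div_nonneg hS0 hs.le)
    apply pow_le_pow_left₀ (by positivity)
    have : S / s ≤ S / s₀ := div_le_div_of_nonneg_left hS0 hs₀pos hss₀
    have := mul_le_mul_of_nonneg_left this hA0
    linarith
  -- conclusion
  have hprod := card_le_prod_entries323 K T'
  have hprodR : (T'.card : ℝ) ≤ ((T'.image fun γ => γ.val 0 0).card : ℝ) *
      (((T'.image fun γ => γ.val 0 1).card : ℝ) *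
        (((T'.image fun γ => γ.val 1 0).card : ℝ) *
          ((T'.image fun γ => γ.val 1 1).card : ℝ))) := by
    exact_mod_cast hprod
  rw [← hcardT]
  have hAS : 0 ≤ A * S := mul_nonneg hA0 hS0
  have hAS0 : 0 ≤ A * (S / s₀) := mul_nonneg hA0 (div_nonneg hS0 hs₀pos.le)
  calc (T'.card : ℝ) ≤ ((T'.image fun γ => γ.val 0 0).card : ℝ) *
      (((T'.image fun γ => γ.val 0 1).card : ℝ) *
        (((T'.image fun γ => γ.val 1 0).card : ℝ) *
          ((T'.image fun γ => γ.val 1 1).card : ℝ))) := hprodR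
    _ ≤ (A * S + 1) ^ n * (((A * S + 1 / s₀) ^ n * M * t) *
          ((A * (S / s₀) + 1) ^ n * (A * S + 1) ^ n)) := by
        have k01 := c01.trans c01'
        have k10 := c10.trans c10'
        have p1 : (0 : ℝ) ≤ (A * S + 1) ^ n := by positivity
        have p2 : (0 : ℝ) ≤ (A * (S / s₀) + 1) ^ n := by positivity
        have p3 : (0 : ℝ) ≤ (A * S + 1 / s₀) ^ n * M * t := by positivity
        apply mul_le_mul c00 _ (by positivity) p1
        apply mul_le_mul k01 _ (by positivity) p3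
        exact mul_le_mul k10 c11 (by positivity) p2
    _ = (A * S + 1) ^ n * ((A * S + 1 / s₀) ^ n * M) * (A * (S / s₀) + 1) ^ n *
          (A * S + 1) ^ n * t := by ring

end Fermat.Agent.LT.T2.H323

end
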